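import Mathlib

set_option autoImplicit false

namespace Fermat.Agent.S22.H11

open Module

/-- Abstract endgame: a `ℤ`-subalgebra of `End_ℂ V` generated by operators whose transposes
preserve a finitely generated, point-separating `ℤ`-lattice in the dual is a finite `ℤ`-module. -/
theorem finite_adjoin_of_dual_lattice {V : Type*} [AddCommGroup V] [Module ℂ V]
    (gens : Set (Module.End ℂ V)) (L : Submodule ℤ (Module.Dual ℂ V)) (hfg : L.FG)
    (hsep : ∀ f : V, (∀ φ ∈ L, φ f = 0) → f = 0)
    (hstab : ∀ T ∈ gens, ∀ φ ∈ L, φ ∘ₗ T ∈ L) :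
    Module.Finite ℤ (Algebra.adjoin ℤ gens) := by
  classical
  -- stability under the whole algebra
  have hstabA : ∀ t ∈ Algebra.adjoin ℤ gens, ∀ φ ∈ L, φ ∘ₗ t ∈ L := by
    intro t ht
    induction ht using Algebra.adjoin_induction with
    | mem x hx => exact hstab x hx
    | algebraMap r =>
      intro φ hφ
      have : φ ∘ₗ (algebraMap ℤ (Module.End ℂ V) r) = r • φ := by
        ext v
        simp
      rw [this]
      exact L.smul_mem r hφ
    | add x y _ _ hx hy =>
      intro φ hφ
      rw [LinearMap.comp_add]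
      exact L.add_mem (hx φ hφ) (hy φ hφ)
    | mul x y _ _ hx hy =>
      intro φ hφ
      have : φ ∘ₗ (x * y) = (φ ∘ₗ x) ∘ₗ y := by
        ext v
        simp
      rw [this]
      exact hy _ (hx φ hφ)
  -- finite generating family of `L`
  obtain ⟨s, hs⟩ := hfg
  have : Module.Finite ℤ L := Module.Finite.iff_fg.mpr ⟨s, hs⟩
  have : IsNoetherian ℤ L := isNoetherian_of_isNoetherianRing_of_finite ℤ L
  have : IsNoetherian ℤ (s → L) := isNoetherian_pi
  have hsL : ∀ φ ∈ s, φ ∈ L := fun φ hφ => hs ▸ Submodule.subset_span hφ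
  let ρ : (Algebra.adjoin ℤ gens) →ₗ[ℤ] (s → L) :=
    { toFun := fun t i => ⟨(i : Module.Dual ℂ V) ∘ₗ (t : Module.End ℂ V),
        hstabA t t.2 i (hsL i i.2)⟩
      map_add' := by
        intro t t'
        funext i
        apply Subtype.ext
        simp [LinearMap.comp_add]
      map_smul' := by
        intro c t
        funext i
        apply Subtype.ext
        ext v
        simp }
  refine Module.Finite.of_injective ρ ?_
  rw [injective_iff_map_eq_zero]
  intro t ht
  apply Subtype.ext
  have h0 : ∀ φ ∈ s, φ ∘ₗ (t : Module.End ℂ V) = 0 := by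
    intro φ hφ
    have := congrFun ht ⟨φ, hφ⟩
    exact congrArg Subtype.val this
  have h1 : ∀ φ ∈ L, φ ∘ₗ (t : Module.End ℂ V) = 0 := by
    intro φ hφ
    rw [← hs] at hφ
    induction hφ using Submodule.span_induction with
    | mem x hx => exact h0 x hx
    | zero => simp
    | add x y _ _ hx hy => rw [LinearMap.add_comp, hx, hy, add_zero]
    | smul a x _ hx => rw [LinearMap.smul_comp, hx, smul_zero]
  ext v
  apply hsep
  intro φ hφ
  have := congrArg (fun g => g v) (h1 φ hφ)
  simpa using this

end Fermat.Agent.S22.H11
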