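import Fermat.Agent.S22.H11.Hecke
import Fermat.Prelude.Def_CuspForm_HeckeAlgebra
import Fermat.Prelude.Sol.S_ModularForm_heckeT_slash_eq_self_of_mem_Gamma0

set_option autoImplicit false

noncomputable section

namespace Fermat.Agent.S22.H11

open Complex Filter Function Metric Set Topology UpperHalfPlane Matrix.SpecialLinearGroup
open scoped Real MatrixGroups ModularForm
open ModularForm
open P2MW.S_ModularForm_heckeT_slash_eq_self_of_mem_Gamma0.ModularForm.HeckeSlashInvariance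

section Gamma0

variable {N : ℕ} {n : ℕ}

theorem mob_heckeMatrix {p : ℕ} (hp : p ≠ 0) (j : ℕ) (z : ℂ) :
    mob (heckeMatrix p j) z = ((1 / p : ℝ) : ℂ) * z + ((j / p : ℝ) : ℂ) := by
  have hp' : (p : ℂ) ≠ 0 := by exact_mod_cast hp
  simp only [mob, num, denom, val_heckeMatrix hp]
  simp
  field_simp

theorem mob_heckeDiagMatrix {p : ℕ} (hp : p ≠ 0) (z : ℂ) :
    mob (heckeDiagMatrix p) z = ((p : ℝ) : ℂ) * z + ((0 : ℝ) : ℂ) := by
  simp only [mob, num, denom, val_heckeDiagMatrix hp]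
  simp

theorem act_heckeMatrix {p : ℕ} (hp : p ≠ 0) (j : ℕ) (u v : ℤ) :
    actU (heckeMatrix p j) u v = ((u + j * v : ℤ) : ℂ) ∧
      actV (heckeMatrix p j) u v = ((p * v : ℤ) : ℂ) := by
  simp [actU, actV, val_heckeMatrix hp]

theorem act_heckeDiagMatrix {p : ℕ} (hp : p ≠ 0) (u v : ℤ) :
    actU (heckeDiagMatrix p) u v = ((p * u : ℤ) : ℂ) ∧
      actV (heckeDiagMatrix p) u v = ((v : ℤ) : ℂ) := by
  simp [actU, actV, val_heckeDiagMatrix hp]

theorem heckeT_stable {p : ℕ} (hp : p.Prime) (hpN : ¬ p ∣ N) :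
    ∀ φ ∈ perLattice N n, φ ∘ₗ CuspForm.heckeTLin ((n : ℤ) + 2) hp hpN ∈ perLattice N n := by
  have : Fact p.Prime := ⟨hp⟩
  have hp0 : p ≠ 0 := hp.ne_zero
  refine hecke_stable_abstract (ι := OnePoint (ZMod p)) (heckeRep p) ?_ ?_ ?_ _ ?_ ?_
  · intro x
    induction x using OnePoint.rec with
    | infty => exact det_heckeDiagMatrix_pos p
    | coe j => exact det_heckeMatrix_pos p j.val
  · intro x
    induction x using OnePoint.rec with
    | infty => exact ⟨p, 0, by exact_mod_cast hp.pos, fun z => mob_heckeDiagMatrix hp0 z⟩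
    | coe j => exact ⟨1 / p, j.val / p, by positivity, fun z => mob_heckeMatrix hp0 j.val z⟩
  · intro x u v
    induction x using OnePoint.rec with
    | infty => exact ⟨_, _, act_heckeDiagMatrix hp0 u v⟩
    | coe j => exact ⟨_, _, act_heckeMatrix hp0 j.val u v⟩
  · intro f
    rw [CuspForm.coe_heckeTLin_apply, heckeT_eq_sum_onePoint]
  · intro γ hγ
    have hcN : (N : ℤ) ∣ γ 1 0 :=
      (ZMod.intCast_zmod_eq_zero_iff_dvd _ _).mp (CongruenceSubgroup.Gamma0_mem.mp hγ)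
    refine ⟨MulAction.toPerm (redMatrix p γ), fun x => ?_⟩
    obtain ⟨g', hg', hmul⟩ := heckeRep_mul hpN γ hcN x
    exact ⟨g', CongruenceSubgroup.Gamma0_mem.mpr ((ZMod.intCast_zmod_eq_zero_iff_dvd _ _).mpr hg'),
      hmul⟩

theorem heckeU_stable [NeZero N] {p : ℕ} (hp : p.Prime) (hpN : p ∣ N) :
    ∀ φ ∈ perLattice N n, φ ∘ₗ CuspForm.heckeULin ((n : ℤ) + 2) hpN ∈ perLattice N n := by
  have : NeZero p := ⟨hp.ne_zero⟩
  have hp0 : p ≠ 0 := hp.ne_zero
  refine hecke_stable_abstract (ι := ZMod p) (fun x => heckeMatrix p x.val) ?_ ?_ ?_ _ ?_ ?_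
  · intro x
    exact det_heckeMatrix_pos p x.val
  · intro x
    exact ⟨1 / p, x.val / p, by positivity, fun z => mob_heckeMatrix hp0 x.val z⟩
  · intro x u v
    exact ⟨_, _, act_heckeMatrix hp0 x.val u v⟩
  · intro f
    rw [CuspForm.coe_heckeULin_apply, heckeU_eq_sum_zmod]
  · intro γ hγ
    have hcN : (N : ℤ) ∣ γ 1 0 :=
      (ZMod.intCast_zmod_eq_zero_iff_dvd _ _).mp (CongruenceSubgroup.Gamma0_mem.mp hγ)
    have hc : (p : ℤ) ∣ γ 1 0 := (Int.natCast_dvd_natCast.mpr hpN).trans hcN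
    refine ⟨affinePerm γ ((ZMod.intCast_zmod_eq_zero_iff_dvd _ _).mpr hc), fun x => ?_⟩
    obtain ⟨g', hg', hmul⟩ := heckeMatrix_mul_of_dvd γ hc x
    refine ⟨g', ?_, hmul⟩
    rw [CongruenceSubgroup.Gamma0_mem, hg']
    push_cast
    rw [CongruenceSubgroup.Gamma0_mem.mp hγ, mul_zero]

end Gamma0

end Fermat.Agent.S22.H11

end
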