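import Fermat.Agent.S22.H11.Periods
import Fermat.Prelude.Thm_Subgroup_IsArithmetic_exists_nat_mem_strictPeriods_conj

set_option autoImplicit false

noncomputable section

namespace Fermat.Agent.S22.H11

open Complex Filter Function Metric Set Topology UpperHalfPlane Matrix.SpecialLinearGroup
open scoped Real MatrixGroups ModularForm Manifold Pointwise

theorem actU_one_right (g : GL (Fin 2) ℝ) (z : ℂ) : actU g z 1 = num g z := by
  simp [actU, num]

theorem actV_one_right (g : GL (Fin 2) ℝ) (z : ℂ) : actV g z 1 = denom g z := by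
  simp [actV, denom]

/-- The diagonal value of `J` after a Möbius transformation. -/
theorem J_num_denom {h : ℝ} (n : ℕ) (D : CuspData h) (g : GL (Fin 2) ℝ) {z : ℂ}
    (hz : denom g z ≠ 0) :
    J n D (num g z) (denom g z) (mob g z) =
      (denom g z) ^ n * ((-1) ^ n * (n.factorial : ℂ) * (D.iter (n + 1)).fn (mob g z)) := by
  have h1 : num g z = denom g z * mob g z := by
    rw [mob]
    field_simp
  have h2 : denom g z = denom g z * 1 := (mul_one _).symm
  conv_lhs => rw [h1]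
  conv_lhs => arg 4; rw [h2]
  rw [J_smul, J_diag]

theorem factorial_sign_ne_zero (n : ℕ) : ((-1 : ℂ) ^ n * (n.factorial : ℂ)) ≠ 0 := by
  refine mul_ne_zero (pow_ne_zero _ (by norm_num)) ?_
  exact_mod_cast n.factorial_ne_zero

section Gamma0

variable {N : ℕ} {n : ℕ}

/-- The `(n+1)`-fold primitive of `f` (Eichler integral), as a function on `ℍ`. -/
def eichler (f : CuspForm (CongruenceSubgroup.Gamma0 N : Subgroup (GL (Fin 2) ℝ)) ((n : ℤ) + 2))
    (τ : ℍ) : ℂ := ((cd f).iter (n + 1)).fn τ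

theorem mdifferentiable_iter_fn {h : ℝ} (D : CuspData h) (m : ℕ) :
    MDifferentiable 𝓘(ℂ) 𝓘(ℂ) (fun τ : ℍ => (D.iter (m + 1)).fn τ) := by
  rw [UpperHalfPlane.mdifferentiable_iff]
  intro z hz
  have hd : DifferentiableAt ℂ (D.iter (m + 1)).fn z :=
    (D.hasDerivAt_iter_succ m hz).differentiableAt
  refine (hd.differentiableWithinAt).congr (fun w hw => ?_) ?_
  · simp only [Function.comp, ofComplex_apply_of_im_pos hw]
  · simp only [Function.comp, ofComplex_apply_of_im_pos hz]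

theorem eichler_slash
    (f : CuspForm (CongruenceSubgroup.Gamma0 N : Subgroup (GL (Fin 2) ℝ)) ((n : ℤ) + 2))
    (hf : ∀ φ ∈ perLattice N n, φ f = 0) {γ : SL(2, ℤ)} (hγ : γ ∈ CongruenceSubgroup.Gamma0 N) :
    (eichler f) ∣[-(n : ℤ)] (mapGL ℝ γ) = eichler f := by
  have hper : ∀ u v : ℂ, perFun N n γ u v f = 0 :=
    perFun_eq_zero_of_int γ f fun u v =>
      hf _ (Submodule.subset_span ⟨γ, hγ, u, v, rfl⟩)
  funext τ
  have hz : 0 < (τ : ℂ).im := τ.im_pos
  have hden : denom (mapGL ℝ γ) (τ : ℂ) ≠ 0 := denom_ne_zero _ τ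
  have h1 := perFun_eq hγ (τ : ℂ) 1 f hz
  rw [hper, actU_one_right, actV_one_right, Jf, Jf, J_num_denom n (cd f) _ hden, J_diag,
    sub_eq_zero] at h1
  have h2 : denom (mapGL ℝ γ) (τ : ℂ) ^ n * ((cd f).iter (n + 1)).fn (mob (mapGL ℝ γ) τ) =
      ((cd f).iter (n + 1)).fn τ := by
    have h3 := factorial_sign_ne_zero n
    apply mul_left_cancel₀ h3
    rw [← h1]
    ring
  rw [ModularForm.slash_apply]
  have hσ : σ (mapGL ℝ γ) = ContinuousAlgEquiv.refl ℝ ℂ := by
    rw [σ, if_pos (det_mapGL_pos γ)]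
  have hdet : (mapGL ℝ γ).det.val = 1 := by simp
  rw [hσ, hdet]
  simp only [ContinuousAlgEquiv.refl_apply, abs_one, ofReal_one, one_zpow, mul_one, neg_neg,
    zpow_natCast]
  rw [eichler, eichler, ← mob_mapGL_coe, mul_comm]
  exact h2

end Gamma0



theorem qParam_add_period {h : ℝ} (hh : h ≠ 0) (z : ℂ) :
    Periodic.qParam h (z + h) = Periodic.qParam h z := by
  unfold Periodic.qParam
  have hh' : (h : ℂ) ≠ 0 := by exact_mod_cast hh
  have : 2 * π * Complex.I * (z + h) / h = 2 * π * Complex.I * z / h + 2 * π * Complex.I := by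
    field_simp
  rw [this, Complex.exp_add, Complex.exp_two_pi_mul_I, mul_one]

theorem CuspData.fn_add_period {h : ℝ} (D : CuspData h) (z : ℂ) : D.fn (z + h) = D.fn z := by
  rw [CuspData.fn, CuspData.fn, qParam_add_period D.hpos.ne']

/-- A polynomial which is periodic on the upper half plane is constant there. -/
theorem poly_const_of_periodic {Q : Polynomial ℂ} {h : ℝ} (hh : 0 < h)
    (hQ : ∀ z : ℂ, 0 < z.im → Q.eval (z + h) = Q.eval z) :
    ∀ z : ℂ, Q.eval z = Q.eval Complex.I := by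
  have h1 : ∀ m : ℕ, Q.eval (Complex.I + m * h) = Q.eval Complex.I := by
    intro m
    induction m with
    | zero => simp
    | succ m ih =>
      have him : 0 < (Complex.I + m * h).im := by simp
      rw [← ih, ← hQ _ him]
      congr 1
      push_cast
      ring
  have h2 : Q - Polynomial.C (Q.eval Complex.I) = 0 := by
    refine Polynomial.eq_zero_of_infinite_isRoot _ ?_
    refine Set.Infinite.mono (s := Set.range (fun m : ℕ => Complex.I + m * h)) ?_ ?_
    · rintro _ ⟨m, rfl⟩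
      simp [h1 m]
    · refine Set.infinite_range_of_injective fun a b hab => ?_
      have hh' : (h : ℂ) ≠ 0 := by exact_mod_cast hh.ne'
      have := mul_right_cancel₀ hh' (add_left_cancel hab)
      exact_mod_cast this
  intro z
  have := congrArg (Polynomial.eval z) h2
  simpa [sub_eq_zero] using this

theorem CuspData.isZeroAtImInfty_fn {h : ℝ} (D : CuspData h) :
    IsZeroAtImInfty (fun τ : ℍ => D.fn τ) := by
  have hc : ContinuousAt D.G 0 :=
    (D.diff.differentiableAt (isOpen_ball.mem_nhds (mem_ball_self one_pos))).continuousAt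
  have h1 : Tendsto D.G (𝓝 0) (𝓝 0) := by
    have := hc.tendsto
    rwa [D.zero] at this
  exact h1.comp (qParam_tendsto_atImInfty D.hpos)

/-- If an iterated primitive is constant on the upper half plane, the previous one vanishes. -/
theorem CuspData.iter_fn_eq_zero_of_succ_const {h : ℝ} (D : CuspData h) (m : ℕ) (c : ℂ)
    (hc : ∀ z : ℂ, 0 < z.im → (D.iter (m + 1)).fn z = c) :
    ∀ z : ℂ, 0 < z.im → (D.iter m).fn z = 0 := by
  intro z hz
  have h1 := D.hasDerivAt_iter_succ m hz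
  have h2 : (D.iter (m + 1)).fn =ᶠ[𝓝 z] fun _ => c := by
    filter_upwards [isOpen_uhp.mem_nhds hz] with w hw using hc w hw
  have h3 := h1.congr_of_eventuallyEq h2.symm
  exact h3.unique (hasDerivAt_const z c)

theorem CuspData.fn_eq_zero_of_iter_const {h : ℝ} (D : CuspData h) (m : ℕ) (c : ℂ)
    (hc : ∀ z : ℂ, 0 < z.im → (D.iter (m + 1)).fn z = c) :
    ∀ z : ℂ, 0 < z.im → D.fn z = 0 := by
  induction m generalizing c with
  | zero => exact D.iter_fn_eq_zero_of_succ_const 0 c hc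
  | succ m ih => exact ih 0 (D.iter_fn_eq_zero_of_succ_const (m + 1) c hc)



section Gamma0

variable {N : ℕ} [NeZero N] {n : ℕ}

omit [NeZero N] in
/-- The slash of the Eichler integral by `γ`, in concrete terms. -/
theorem eichler_slash_apply
    (f : CuspForm (CongruenceSubgroup.Gamma0 N : Subgroup (GL (Fin 2) ℝ)) ((n : ℤ) + 2))
    (γ : SL(2, ℤ)) (τ : ℍ) :
    ((eichler f) ∣[-(n : ℤ)] (mapGL ℝ γ)) τ =
      denom (mapGL ℝ γ) (τ : ℂ) ^ n * ((cd f).iter (n + 1)).fn (mob (mapGL ℝ γ) τ) := by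
  rw [ModularForm.slash_apply]
  have hσ : σ (mapGL ℝ γ) = ContinuousAlgEquiv.refl ℝ ℂ := by
    rw [σ, if_pos (det_mapGL_pos γ)]
  have hdet : (mapGL ℝ γ).det.val = 1 := by simp
  rw [hσ, hdet]
  simp only [ContinuousAlgEquiv.refl_apply, abs_one, ofReal_one, one_zpow, mul_one, neg_neg,
    zpow_natCast]
  rw [eichler, ← mob_mapGL_coe, mul_comm]

/-- Key cusp computation: the slashed Eichler integral is an Eichler integral of the slashed
form plus a polynomial. -/
theorem exists_poly_eichler_slash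
    (f : CuspForm (CongruenceSubgroup.Gamma0 N : Subgroup (GL (Fin 2) ℝ)) ((n : ℤ) + 2))
    (γ : SL(2, ℤ)) :
    ∃ (M : ℕ) (_ : 0 < M) (D' : CuspData (M : ℝ)) (Q : Polynomial ℂ),
      (M : ℝ) ∈ (ConjAct.toConjAct (mapGL ℝ γ)⁻¹ •
        (CongruenceSubgroup.Gamma0 N : Subgroup (GL (Fin 2) ℝ))).strictPeriods ∧
      ∀ τ : ℍ, ((eichler f) ∣[-(n : ℤ)] (mapGL ℝ γ)) τ =
        (D'.iter (n + 1)).fn τ + Q.eval (τ : ℂ) := by
  obtain ⟨M, hM, hper⟩ := Subgroup.IsArithmetic.exists_nat_mem_strictPeriods_conj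
    (CongruenceSubgroup.Gamma0 N : Subgroup (GL (Fin 2) ℝ))
  have hΓ' : (M : ℝ) ∈ (ConjAct.toConjAct (mapGL ℝ γ)⁻¹ •
      (CongruenceSubgroup.Gamma0 N : Subgroup (GL (Fin 2) ℝ))).strictPeriods := by
    have := hper γ⁻¹
    rwa [map_inv] at this
  have hM' : (0 : ℝ) < M := by exact_mod_cast hM
  set g : GL (Fin 2) ℝ := mapGL ℝ γ with hg
  set f' := CuspForm.translate f g with hf'
  set D' : CuspData (M : ℝ) := cuspData f' hM' hΓ' with hD'
  have hgdet : 0 < g.det.val := det_mapGL_pos γ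
  have hI : 0 < (UpperHalfPlane.I : ℂ).im := UpperHalfPlane.I.im_pos
  -- the two primitives differ by a constant
  have hconst : ∀ (u v : ℂ) {z : ℂ}, 0 < z.im →
      Jf f (actU g u v) (actV g u v) (mob g z) - J n D' u v z =
        Jf f (actU g u v) (actV g u v) (mob g UpperHalfPlane.I) - J n D' u v UpperHalfPlane.I := by
    intro u v z hz
    refine sub_eq_sub_of_hasDerivAt
      (F₁ := fun z => Jf f (actU g u v) (actV g u v) (mob g z))
      (g := fun z => (v * z - u) ^ n * ((⇑f : ℍ → ℂ) ∣[(n : ℤ) + 2] g) (ofComplex z))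
      (fun x hx => ?_) (fun x hx => ?_) hz hI
    · exact hasDerivAt_comp_mob (n := n) g hgdet (f : ℍ → ℂ) u v
        (Jf f (actU g u v) (actV g u v)) (fun y hy => hasDerivAt_Jf f _ _ hy) hx
    · have := hasDerivAt_J n D' u v hx
      rw [hD', cuspData_fn f' hM' hΓ' hx] at this
      exact this
  obtain ⟨P₁, hP₁⟩ := J_poly n (cd f) ((g 0 0 : ℝ) : ℂ) ((g 0 1 : ℝ) : ℂ) ((g 1 0 : ℝ) : ℂ)
    ((g 1 1 : ℝ) : ℂ) (mob g UpperHalfPlane.I)
  obtain ⟨P₂, hP₂⟩ := J_poly n D' 1 0 0 1 UpperHalfPlane.I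
  refine ⟨M, hM, D', Polynomial.C ((-1 : ℂ) ^ n * (n.factorial : ℂ))⁻¹ * (P₁ - P₂), hΓ', fun τ => ?_⟩
  have hz : 0 < (τ : ℂ).im := τ.im_pos
  have hden : denom g (τ : ℂ) ≠ 0 := denom_ne_zero _ τ
  have h1 := hconst (τ : ℂ) 1 hz
  rw [actU_one_right, actV_one_right, Jf, J_num_denom n (cd f) _ hden, J_diag] at h1
  have h2 : Jf f (num g τ) (denom g τ) (mob g UpperHalfPlane.I) = P₁.eval (τ : ℂ) := by
    rw [← hP₁, Jf]
    simp [num, denom]
  have h3 : J n D' τ 1 UpperHalfPlane.I = P₂.eval (τ : ℂ) := by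
    rw [← hP₂]
    simp
  rw [h2, h3] at h1
  rw [eichler_slash_apply, Polynomial.eval_mul, Polynomial.eval_C, Polynomial.eval_sub, ← h1,
    ← hg]
  have h4 := factorial_sign_ne_zero n
  generalize (-1 : ℂ) ^ n * (n.factorial : ℂ) = c at h4 ⊢
  field_simp
  ring

end Gamma0



section Gamma0

variable {N : ℕ} [NeZero N] {n : ℕ}

/-- The Eichler integral as a slash invariant form of weight `-n`, assuming vanishing periods. -/
def eichlerSIF
    (f : CuspForm (CongruenceSubgroup.Gamma0 N : Subgroup (GL (Fin 2) ℝ)) ((n : ℤ) + 2))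
    (hf : ∀ φ ∈ perLattice N n, φ f = 0) :
    SlashInvariantForm (CongruenceSubgroup.Gamma0 N : Subgroup (GL (Fin 2) ℝ)) (-(n : ℤ)) where
  toFun := eichler f
  slash_action_eq' g hg := by
    obtain ⟨γ, hγ, rfl⟩ := hg
    exact eichler_slash f hf hγ

theorem isBoundedAtImInfty_eichler_slash
    (f : CuspForm (CongruenceSubgroup.Gamma0 N : Subgroup (GL (Fin 2) ℝ)) ((n : ℤ) + 2))
    (hf : ∀ φ ∈ perLattice N n, φ f = 0) (γ : SL(2, ℤ)) :
    IsBoundedAtImInfty ((eichler f) ∣[-(n : ℤ)] (mapGL ℝ γ)) := by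
  obtain ⟨M, hM, D', Q, hΓ', hQ⟩ := exists_poly_eichler_slash f γ
  have hM' : (0 : ℝ) < M := by exact_mod_cast hM
  -- periodicity of the slashed Eichler integral
  have hper := SlashInvariantFormClass.periodic_comp_ofComplex
    (SlashInvariantForm.translate (eichlerSIF f hf) (mapGL ℝ γ)) hΓ'
  have hQper : ∀ z : ℂ, 0 < z.im → Q.eval (z + (M : ℝ)) = Q.eval z := by
    intro z hz
    have hz' : 0 < (z + (M : ℝ)).im := by simpa using hz
    have h1 := hper z
    simp only [Function.comp, SlashInvariantForm.coe_translate, ofComplex_apply_of_im_pos hz,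
      ofComplex_apply_of_im_pos hz'] at h1
    have h2 : (⇑(eichlerSIF f hf) : ℍ → ℂ) = eichler f := rfl
    rw [h2, hQ, hQ] at h1
    have h3 : (D'.iter (n + 1)).fn (z + (M : ℝ)) = (D'.iter (n + 1)).fn z :=
      CuspData.fn_add_period _ z
    rw [h3] at h1
    exact add_left_cancel h1
  have hQc := poly_const_of_periodic hM' hQper
  have heq : ((eichler f) ∣[-(n : ℤ)] (mapGL ℝ γ)) =
      fun τ : ℍ => (D'.iter (n + 1)).fn τ + Q.eval Complex.I := by
    funext τ
    rw [hQ, hQc]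
  rw [heq]
  exact ((D'.iter (n + 1)).isZeroAtImInfty_fn.boundedAtFilter).add
    (Filter.const_boundedAtFilter _ _)

/-- The Eichler integral as a modular form of weight `-n`, assuming vanishing periods. -/
def eichlerMF
    (f : CuspForm (CongruenceSubgroup.Gamma0 N : Subgroup (GL (Fin 2) ℝ)) ((n : ℤ) + 2))
    (hf : ∀ φ ∈ perLattice N n, φ f = 0) :
    ModularForm (CongruenceSubgroup.Gamma0 N : Subgroup (GL (Fin 2) ℝ)) (-(n : ℤ)) where
  toSlashInvariantForm := eichlerSIF f hf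
  holo' := mdifferentiable_iter_fn (cd f) n
  bdd_at_cusps' {c} hc := by
    rw [Subgroup.IsArithmetic.isCusp_iff_isCusp_SL2Z] at hc
    rw [OnePoint.isBoundedAt_iff_forall_SL2Z hc]
    intro γ _
    exact isBoundedAtImInfty_eichler_slash f hf γ

/-- The period lattice separates cusp forms. -/
theorem perLattice_separates
    (f : CuspForm (CongruenceSubgroup.Gamma0 N : Subgroup (GL (Fin 2) ℝ)) ((n : ℤ) + 2))
    (hf : ∀ φ ∈ perLattice N n, φ f = 0) : f = 0 := by
  -- the Eichler integral is constant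
  have hconst : ∃ c : ℂ, ∀ z : ℂ, 0 < z.im → ((cd f).iter (n + 1)).fn z = c := by
    rcases Nat.eq_zero_or_pos n with hn | hn
    · subst hn
      obtain ⟨c, hc⟩ := ModularForm.eq_const_of_weight_zero
        (ModularForm.mcast (by simp) (eichlerMF f hf))
      refine ⟨c, fun z hz => ?_⟩
      have := congrFun hc ⟨z, hz⟩
      exact this
    · have h0 : eichlerMF f hf = 0 :=
        ModularForm.isZero_of_neg_weight (by simpa using hn) (eichlerMF f hf)
      refine ⟨0, fun z hz => ?_⟩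
      have := congrArg (fun F : ModularForm _ _ => F ⟨z, hz⟩) h0
      exact this
  obtain ⟨c, hc⟩ := hconst
  have h0 := (cd f).fn_eq_zero_of_iter_const n c hc
  ext τ
  have := h0 τ τ.im_pos
  rw [cd_fn f τ.im_pos] at this
  simpa using this

end Gamma0

end Fermat.Agent.S22.H11

end
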