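import Fermat.Statements.S22

set_option autoImplicit false

namespace Fermat.Agent.S22.H11

open CongruenceSubgroup UpperHalfPlane
open scoped MatrixGroups ModularForm

/-- Cusp forms of weight `≤ 1` on `Γ₀(N)` vanish. -/
theorem cuspForm_eq_zero_of_weight_le_one (N : ℕ) [NeZero N] {k : ℤ} (hk : k ≤ 1)
    (f : CuspForm (Gamma0 N : Subgroup (GL (Fin 2) ℝ)) k) : f = 0 := by
  -- pass to the underlying modular form
  let F : ModularForm (Gamma0 N : Subgroup (GL (Fin 2) ℝ)) k := ModularFormClass.modularForm f
  have hF : ∀ τ, F τ = f τ := fun τ => rfl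
  suffices hz : F = 0 by
    ext τ
    rw [← hF, hz]
    rfl
  rcases lt_trichotomy k 0 with hneg | hzero | hpos
  · exact ModularForm.isZero_of_neg_weight hneg F
  · subst hzero
    obtain ⟨c, hc⟩ := ModularForm.eq_const_of_weight_zero F
    have h0 : IsZeroAtImInfty (f : ℍ → ℂ) := CuspFormClass.zero_at_infty f
    have hc' : (f : ℍ → ℂ) = Function.const ℍ c := hc
    rw [hc'] at h0
    have : c = 0 := by
      have h1 : Filter.Tendsto (Function.const ℍ c) atImInfty (nhds 0) := h0
      have h2 : Filter.Tendsto (Function.const ℍ c) atImInfty (nhds c) := tendsto_const_nhds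
      exact tendsto_nhds_unique h2 h1
    ext τ
    rw [hc, this]
    rfl
  · have hk1 : k = 1 := le_antisymm hk hpos
    subst hk1
    refine ModularForm.eq_zero_of_neg_one_mem ?_ (by decide) F
    refine Subgroup.mem_map.mpr ⟨-1, ?_, ?_⟩
    · rw [Gamma0_mem]
      simp
    · ext i j
      fin_cases i <;> fin_cases j <;> simp [Matrix.SpecialLinearGroup.mapGL]

end Fermat.Agent.S22.H11
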