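import Mathlib

set_option autoImplicit false

namespace Fermat.Agent.S22.H11

open CongruenceSubgroup
open scoped MatrixGroups

theorem fg_SL2Z : Group.FG SL(2, ℤ) := by
  rw [Group.fg_iff]
  exact ⟨{ModularGroup.S, ModularGroup.T}, SpecialLinearGroup.SL2Z_generators, by simp⟩

/-- `Γ₀(N)` is finitely generated. -/
theorem exists_finset_closure_eq_Gamma0 (N : ℕ) [NeZero N] :
    ∃ S : Finset SL(2, ℤ), Subgroup.closure (S : Set SL(2, ℤ)) = Gamma0 N := by
  have := fg_SL2Z
  have h : Group.FG (Gamma0 N) := Subgroup.fg_of_index_ne_zero _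
  exact (Group.fg_iff_subgroup_fg _).mp h

end Fermat.Agent.S22.H11
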