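import Fermat.Agent.S22.H11.Periods

set_option autoImplicit false

noncomputable section

namespace Fermat.Agent.S22.H11

open Complex Filter Function Metric Set Topology UpperHalfPlane Matrix.SpecialLinearGroup
open scoped Real MatrixGroups ModularForm

theorem VDecay.sum {ι : Type*} (s : Finset ι) {F : ι → ℂ → ℂ} (hF : ∀ i ∈ s, VDecay (F i)) :
    VDecay (fun z => ∑ i ∈ s, F i z) := by
  classical
  induction s using Finset.induction_on with
  | empty => simpa using VDecay.zero
  | insert a s ha ih =>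
    simp only [Finset.sum_insert ha]
    exact (hF a (Finset.mem_insert_self a s)).add
      (ih fun i hi => hF i (Finset.mem_insert_of_mem hi))

section Gamma0

variable {N : ℕ} {n : ℕ}

/-- Abstract Hecke stability of the period lattice. -/
theorem hecke_stable_abstract {ι : Type*} [Fintype ι] (α : ι → GL (Fin 2) ℝ)
    (hdet : ∀ x, 0 < (α x).det.val)
    (haff : ∀ x, ∃ a b : ℝ, 0 < a ∧ ∀ z : ℂ, mob (α x) z = a * z + b)
    (hint : ∀ x (u v : ℤ), ∃ u' v' : ℤ, actU (α x) u v = u' ∧ actV (α x) u v = v')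
    (T : CuspForm (CongruenceSubgroup.Gamma0 N : Subgroup (GL (Fin 2) ℝ)) ((n : ℤ) + 2) →ₗ[ℂ]
      CuspForm (CongruenceSubgroup.Gamma0 N : Subgroup (GL (Fin 2) ℝ)) ((n : ℤ) + 2))
    (hT : ∀ f, (⇑(T f) : ℍ → ℂ) = ∑ x, ((⇑f : ℍ → ℂ) ∣[(n : ℤ) + 2] α x))
    (hperm : ∀ γ ∈ CongruenceSubgroup.Gamma0 N, ∃ σ : Equiv.Perm ι, ∀ x,
      ∃ γ' ∈ CongruenceSubgroup.Gamma0 N, α x * mapGL ℝ γ = mapGL ℝ γ' * α (σ x)) :
    ∀ φ ∈ perLattice N n, φ ∘ₗ T ∈ perLattice N n := by
  classical
  -- Step 1: the primitive attached to `T f`.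
  have step1 : ∀ (f : CuspForm (CongruenceSubgroup.Gamma0 N : Subgroup (GL (Fin 2) ℝ))
      ((n : ℤ) + 2)) (u v : ℂ) {z : ℂ}, 0 < z.im →
      Jf (T f) u v z = ∑ x, Jf f (actU (α x) u v) (actV (α x) u v) (mob (α x) z) := by
    intro f u v z hz
    refine eq_of_hasDerivAt_of_vdecay (g := fun z => (v * z - u) ^ n * (T f) (ofComplex z))
      (F₂ := fun z => ∑ x, Jf f (actU (α x) u v) (actV (α x) u v) (mob (α x) z))
      (fun w hw => hasDerivAt_Jf (T f) u v hw) (fun w hw => ?_) (vdecay_Jf _ _ _) ?_ hz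
    · have h1 : ∀ x ∈ (Finset.univ : Finset ι), HasDerivAt
          (fun z => Jf f (actU (α x) u v) (actV (α x) u v) (mob (α x) z))
          ((v * w - u) ^ n * ((⇑f : ℍ → ℂ) ∣[(n : ℤ) + 2] α x) (ofComplex w)) w := fun x _ =>
        hasDerivAt_comp_mob (n := n) (α x) (hdet x) (f : ℍ → ℂ) u v
          (Jf f (actU (α x) u v) (actV (α x) u v)) (fun y hy => hasDerivAt_Jf f _ _ hy) hw
      have h2 := HasDerivAt.fun_sum h1
      refine h2.congr_deriv ?_
      rw [hT f, Finset.sum_apply, Finset.mul_sum]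
    · refine VDecay.sum _ fun x _ => ?_
      obtain ⟨a, b, ha, hab⟩ := haff x
      have := (vdecay_Jf f (actU (α x) u v) (actV (α x) u v)).comp_affine a b ha
      simpa only [hab] using this
  -- Step 2: transformation of the period functionals.
  have step2 : ∀ γ ∈ CongruenceSubgroup.Gamma0 N, ∀ u v : ℤ,
      perFun N n γ u v ∘ₗ T ∈ perLattice N n := by
    intro γ hγ u v
    obtain ⟨σ, hσ⟩ := hperm γ hγ
    choose γ' hγ' hmul using hσ
    have hI : 0 < (UpperHalfPlane.I : ℂ).im := UpperHalfPlane.I.im_pos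
    have key : perFun N n γ u v ∘ₗ T = ∑ x, perFun N n (γ' x)
        (actU (α (σ x)) u v) (actV (α (σ x)) u v) := by
      ext f
      rw [LinearMap.comp_apply, LinearMap.coe_sum, Finset.sum_apply,
        ← perFun_eq hγ u v (T f) hI, step1 f _ _ (mob_im_pos (det_mapGL_pos γ) hI), step1 f _ _ hI]
      have hx : ∀ x, Jf f (actU (α x) (actU (mapGL ℝ γ) u v) (actV (mapGL ℝ γ) u v))
          (actV (α x) (actU (mapGL ℝ γ) u v) (actV (mapGL ℝ γ) u v))
          (mob (α x) (mob (mapGL ℝ γ) UpperHalfPlane.I)) =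
          perFun N n (γ' x) (actU (α (σ x)) u v) (actV (α (σ x)) u v) f +
            Jf f (actU (α (σ x)) u v) (actV (α (σ x)) u v) (mob (α (σ x)) UpperHalfPlane.I) := by
        intro x
        rw [← actU_mul, ← actV_mul, ← mob_mul (hdet x) (det_mapGL_pos γ) hI, hmul x, actU_mul,
          actV_mul, mob_mul (det_mapGL_pos (γ' x)) (hdet (σ x)) hI,
          ← perFun_eq (hγ' x) _ _ f (mob_im_pos (hdet (σ x)) hI)]
        ring
      simp only [hx, Finset.sum_add_distrib]
      rw [Equiv.sum_comp σ (fun x => Jf f (actU (α x) u v) (actV (α x) u v)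
        (mob (α x) UpperHalfPlane.I))]
      ring
    rw [key]
    refine Submodule.sum_mem _ fun x _ => ?_
    obtain ⟨u', v', hu', hv'⟩ := hint (σ x) u v
    rw [hu', hv']
    exact Submodule.subset_span ⟨γ' x, hγ' x, u', v', rfl⟩
  -- Step 3: span induction.
  intro φ hφ
  induction hφ using Submodule.span_induction with
  | mem x hx =>
    obtain ⟨γ, hγ, u, v, rfl⟩ := hx
    exact step2 γ hγ u v
  | zero => simp
  | add x y _ _ hx hy =>
    rw [LinearMap.add_comp]
    exact Submodule.add_mem _ hx hy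
  | smul a x _ hx =>
    rw [LinearMap.smul_comp]
    exact Submodule.smul_mem _ a hx

end Gamma0

end Fermat.Agent.S22.H11

end
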