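import Fermat.Agent.S22.H11.Prim

set_option autoImplicit false

noncomputable section

namespace Fermat.Agent.S22.H11

open Complex Filter Function Metric Set Topology UpperHalfPlane
open scoped Real MatrixGroups ModularForm

/-- First coordinate of the action of a real matrix on a complex vector `(u, v)`. -/
def actU (g : GL (Fin 2) ℝ) (u v : ℂ) : ℂ := (g 0 0 : ℝ) * u + (g 0 1 : ℝ) * v

/-- Second coordinate of the action of a real matrix on a complex vector `(u, v)`. -/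
def actV (g : GL (Fin 2) ℝ) (u v : ℂ) : ℂ := (g 1 0 : ℝ) * u + (g 1 1 : ℝ) * v

theorem actU_mul (g g' : GL (Fin 2) ℝ) (u v : ℂ) :
    actU (g * g') u v = actU g (actU g' u v) (actV g' u v) := by
  simp only [actU, actV, Matrix.GeneralLinearGroup.coe_mul, Matrix.mul_apply, Fin.sum_univ_two]
  push_cast
  ring

theorem actV_mul (g g' : GL (Fin 2) ℝ) (u v : ℂ) :
    actV (g * g') u v = actV g (actU g' u v) (actV g' u v) := by
  simp only [actU, actV, Matrix.GeneralLinearGroup.coe_mul, Matrix.mul_apply, Fin.sum_univ_two]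
  push_cast
  ring

@[simp] theorem actU_one (u v : ℂ) : actU 1 u v = u := by simp [actU]

@[simp] theorem actV_one (u v : ℂ) : actV 1 u v = v := by simp [actV]

/-- The Möbius map of a real matrix, as a function on `ℂ`. -/
def mob (g : GL (Fin 2) ℝ) (z : ℂ) : ℂ := num g z / denom g z

theorem mob_eq_coe_smul {g : GL (Fin 2) ℝ} (hg : 0 < g.det.val) {z : ℂ} (hz : 0 < z.im) :
    mob g z = ((g • (⟨z, hz⟩ : ℍ) : ℍ) : ℂ) := by
  rw [coe_smul_of_det_pos hg]
  rfl

theorem mob_im_pos {g : GL (Fin 2) ℝ} (hg : 0 < g.det.val) {z : ℂ} (hz : 0 < z.im) :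
    0 < (mob g z).im := by
  rw [mob_eq_coe_smul hg hz]
  exact (g • (⟨z, hz⟩ : ℍ)).im_pos

theorem ofComplex_mob {g : GL (Fin 2) ℝ} (hg : 0 < g.det.val) {z : ℂ} (hz : 0 < z.im) :
    ofComplex (mob g z) = g • (⟨z, hz⟩ : ℍ) := by
  rw [mob_eq_coe_smul hg hz]
  exact ofComplex_apply _

theorem mob_mul {g g' : GL (Fin 2) ℝ} (hg : 0 < g.det.val) (hg' : 0 < g'.det.val) {z : ℂ}
    (hz : 0 < z.im) : mob (g * g') z = mob g (mob g' z) := by
  have hgg' : 0 < (g * g').det.val := by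
    rw [map_mul, Units.val_mul]
    exact mul_pos hg hg'
  rw [mob_eq_coe_smul hgg' hz, mob_eq_coe_smul hg (mob_im_pos hg' hz), mul_smul]
  congr 2
  apply UpperHalfPlane.ext
  exact (mob_eq_coe_smul hg' hz).symm

theorem det_eq (g : GL (Fin 2) ℝ) : g.det.val = g 0 0 * g 1 1 - g 0 1 * g 1 0 := by
  rw [Matrix.GeneralLinearGroup.val_det_apply, Matrix.det_fin_two]

theorem hasDerivAt_mob (g : GL (Fin 2) ℝ) {z : ℂ} (hz : denom g z ≠ 0) :
    HasDerivAt (mob g) ((g.det.val : ℂ) / (denom g z) ^ 2) z := by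
  have h1 : HasDerivAt (num g) ((g 0 0 : ℝ) : ℂ) z := by
    unfold num
    simpa using ((hasDerivAt_id z).const_mul ((g 0 0 : ℝ) : ℂ)).add_const ((g 0 1 : ℝ) : ℂ)
  have h2 : HasDerivAt (denom g) ((g 1 0 : ℝ) : ℂ) z := by
    unfold denom
    simpa using ((hasDerivAt_id z).const_mul ((g 1 0 : ℝ) : ℂ)).add_const ((g 1 1 : ℝ) : ℂ)
  have h3 := h1.div h2 hz
  refine h3.congr_deriv ?_
  rw [det_eq]
  simp only [num, denom]
  push_cast
  ring

theorem key_identity (g : GL (Fin 2) ℝ) (u v : ℂ) {z : ℂ} (hz : denom g z ≠ 0) :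
    actV g u v * mob g z - actU g u v = (g.det.val : ℂ) * (v * z - u) / denom g z := by
  rw [mob, det_eq]
  have hz' := hz
  simp only [denom] at hz'
  simp only [actU, actV, num, denom]
  field_simp
  push_cast
  ring

/-- Transport of primitives along a Möbius map. -/
theorem hasDerivAt_comp_mob {n : ℕ} (g : GL (Fin 2) ℝ) (hg : 0 < g.det.val) (φ : ℍ → ℂ)
    (u v : ℂ) (F : ℂ → ℂ)
    (hF : ∀ z : ℂ, 0 < z.im →
      HasDerivAt F ((actV g u v * z - actU g u v) ^ n * φ (ofComplex z)) z)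
    {z : ℂ} (hz : 0 < z.im) :
    HasDerivAt (fun z => F (mob g z))
      ((v * z - u) ^ n * (φ ∣[(n : ℤ) + 2] g) (ofComplex z)) z := by
  have hden : denom g z ≠ 0 := denom_ne_zero_of_im g hz.ne'
  have h1 := (hF (mob g z) (mob_im_pos hg hz)).comp z (hasDerivAt_mob g hden)
  refine h1.congr_deriv ?_
  rw [key_identity g u v hden, ofComplex_mob hg hz, ModularForm.slash_apply,
    ofComplex_apply_of_im_pos hz]
  have hσ : σ g = ContinuousAlgEquiv.refl ℝ ℂ := by
    rw [σ, if_pos hg]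
  rw [hσ, abs_of_pos hg]
  simp only [ContinuousAlgEquiv.refl_apply]
  have hd : ((g.det.val : ℝ) : ℂ) ≠ 0 := by exact_mod_cast hg.ne'
  have hden' : denom g (⟨z, hz⟩ : ℍ) = denom g z := rfl
  rw [hden', show (n : ℤ) + 2 - 1 = (n : ℤ) + 1 by ring, zpow_add₀ hd, zpow_natCast, zpow_one,
    zpow_neg, zpow_add₀ hden, zpow_natCast, zpow_two, div_pow, mul_pow]
  field_simp

end Fermat.Agent.S22.H11

end
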