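import Fermat.Agent.S22.H11.Mobius
import Fermat.Prelude.Thm_CongruenceSubgroup_one_mem_strictPeriods_Gamma0
import Fermat.Agent.S22.H11.Gamma0FG

set_option autoImplicit false

noncomputable section

namespace Fermat.Agent.S22.H11

open Complex Filter Function Metric Set Topology UpperHalfPlane Matrix.SpecialLinearGroup
open scoped Real MatrixGroups ModularForm

section general

variable {Γ : Subgroup (GL (Fin 2) ℝ)} {k : ℤ} {F : Type*} [FunLike F ℍ ℂ] [CuspFormClass F Γ k]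

/-- Cusp data of a cusp form with respect to a positive strict period. -/
def cuspData (f : F) {h : ℝ} (hh : 0 < h) (hΓ : h ∈ Γ.strictPeriods) : CuspData h where
  hpos := hh
  G := cuspFunction h f
  diff := fun _ hq =>
    (ModularFormClass.differentiableAt_cuspFunction f hh hΓ
      (mem_ball_zero_iff.mp hq)).differentiableWithinAt
  zero := CuspFormClass.cuspFunction_apply_zero f hh hΓ

theorem cuspData_fn (f : F) {h : ℝ} (hh : 0 < h) (hΓ : h ∈ Γ.strictPeriods) {z : ℂ}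
    (hz : 0 < z.im) : (cuspData f hh hΓ).fn z = f (ofComplex z) := by
  rw [ofComplex_apply_of_im_pos hz]
  exact SlashInvariantFormClass.eq_cuspFunction f ⟨z, hz⟩ hΓ hh.ne'

end general

section Gamma0

variable {N : ℕ} {n : ℕ}

/-- Cusp data (period `1`) of a cusp form on `Γ₀(N)`. -/
def cd (f : CuspForm (CongruenceSubgroup.Gamma0 N : Subgroup (GL (Fin 2) ℝ)) ((n : ℤ) + 2)) :
    CuspData 1 :=
  cuspData f one_pos (CongruenceSubgroup.one_mem_strictPeriods_Gamma0 N)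

theorem cd_fn (f : CuspForm (CongruenceSubgroup.Gamma0 N : Subgroup (GL (Fin 2) ℝ)) ((n : ℤ) + 2))
    {z : ℂ} (hz : 0 < z.im) : (cd f).fn z = f (ofComplex z) :=
  cuspData_fn f _ _ hz

/-- The decaying primitive of `(v z - u)^n f(z)`. -/
def Jf (f : CuspForm (CongruenceSubgroup.Gamma0 N : Subgroup (GL (Fin 2) ℝ)) ((n : ℤ) + 2))
    (u v z : ℂ) : ℂ := J n (cd f) u v z

variable (f g : CuspForm (CongruenceSubgroup.Gamma0 N : Subgroup (GL (Fin 2) ℝ)) ((n : ℤ) + 2))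

theorem hasDerivAt_Jf (u v : ℂ) {z : ℂ} (hz : 0 < z.im) :
    HasDerivAt (Jf f u v) ((v * z - u) ^ n * f (ofComplex z)) z := by
  have := hasDerivAt_J n (cd f) u v hz
  rwa [cd_fn f hz] at this

theorem vdecay_Jf (u v : ℂ) : VDecay (Jf f u v) := vdecay_J n (cd f) u v

theorem Jf_add (u v : ℂ) {z : ℂ} (hz : 0 < z.im) :
    Jf (f + g) u v z = Jf f u v z + Jf g u v z := by
  refine J_add (fun w hw => ?_) n u v hz
  rw [cd_fn _ hw, cd_fn _ hw, cd_fn _ hw]
  rfl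

theorem Jf_smul (c : ℂ) (u v : ℂ) {z : ℂ} (hz : 0 < z.im) :
    Jf (c • f) u v z = c * Jf f u v z := by
  refine J_const_mul c (fun w hw => ?_) n u v hz
  rw [cd_fn _ hw, cd_fn _ hw]
  rfl

theorem det_mapGL_pos (γ : SL(2, ℤ)) : 0 < (mapGL ℝ γ).det.val := by
  have : (mapGL ℝ γ).det = 1 := by simp
  rw [this]
  simp

/-- `Γ₀(N)`-invariance: the difference of the two primitives is constant. -/
theorem Jf_mob_sub_const {γ : SL(2, ℤ)} (hγ : γ ∈ CongruenceSubgroup.Gamma0 N) (u v : ℂ)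
    {z w : ℂ} (hz : 0 < z.im) (hw : 0 < w.im) :
    Jf f (actU (mapGL ℝ γ) u v) (actV (mapGL ℝ γ) u v) (mob (mapGL ℝ γ) z) - Jf f u v z =
      Jf f (actU (mapGL ℝ γ) u v) (actV (mapGL ℝ γ) u v) (mob (mapGL ℝ γ) w) - Jf f u v w := by
  have hinv : (f : ℍ → ℂ) ∣[(n : ℤ) + 2] (mapGL ℝ γ) = f :=
    SlashInvariantFormClass.slash_action_eq f _ (Subgroup.mem_map_of_mem _ hγ)
  refine sub_eq_sub_of_hasDerivAt
    (F₁ := fun z => Jf f (actU (mapGL ℝ γ) u v) (actV (mapGL ℝ γ) u v) (mob (mapGL ℝ γ) z))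
    (g := fun z => (v * z - u) ^ n * f (ofComplex z))
    (fun x hx => ?_) (fun x hx => hasDerivAt_Jf f u v hx) hz hw
  have := hasDerivAt_comp_mob (n := n) (mapGL ℝ γ) (det_mapGL_pos γ) (f : ℍ → ℂ) u v
    (Jf f (actU (mapGL ℝ γ) u v) (actV (mapGL ℝ γ) u v))
    (fun y hy => hasDerivAt_Jf f _ _ hy) hx
  rwa [hinv] at this

end Gamma0

section Gamma0

variable {N : ℕ} {n : ℕ}

/-- Evaluation of the `m`-th iterated primitive at a point, as a linear functional. -/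
def evIter (N n m : ℕ) (τ : ℍ) :
    CuspForm (CongruenceSubgroup.Gamma0 N : Subgroup (GL (Fin 2) ℝ)) ((n : ℤ) + 2) →ₗ[ℂ] ℂ where
  toFun f := ((cd f).iter m).fn τ
  map_add' f g := by
    refine CuspData.iter_fn_add (fun w hw => ?_) m τ τ.im_pos
    rw [cd_fn _ hw, cd_fn _ hw, cd_fn _ hw]
    rfl
  map_smul' c f := by
    refine CuspData.iter_fn_smul c (fun w hw => ?_) m τ τ.im_pos
    rw [cd_fn _ hw, cd_fn _ hw]
    rfl

/-- `f ↦ Jf f u v τ` as a linear functional. -/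
def JfFun (N n : ℕ) (u v : ℂ) (τ : ℍ) :
    CuspForm (CongruenceSubgroup.Gamma0 N : Subgroup (GL (Fin 2) ℝ)) ((n : ℤ) + 2) →ₗ[ℂ] ℂ where
  toFun f := Jf f u v τ
  map_add' f g := Jf_add f g u v τ.im_pos
  map_smul' c f := Jf_smul f c u v τ.im_pos

@[simp] theorem JfFun_apply (u v : ℂ) (τ : ℍ)
    (f : CuspForm (CongruenceSubgroup.Gamma0 N : Subgroup (GL (Fin 2) ℝ)) ((n : ℤ) + 2)) :
    JfFun N n u v τ f = Jf f u v τ := rfl

/-- The finite set of generating functionals at a point. -/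
def genSet (N n : ℕ) (τ : ℍ) : Set
    (CuspForm (CongruenceSubgroup.Gamma0 N : Subgroup (GL (Fin 2) ℝ)) ((n : ℤ) + 2) →ₗ[ℂ] ℂ) :=
  (fun p : ℕ × ℕ => ((τ : ℂ) ^ p.1) • evIter N n (p.2 + 1) τ) ''
    ((Finset.range (n + 1) ×ˢ Finset.range (n + 1) : Finset (ℕ × ℕ)) : Set (ℕ × ℕ))

theorem genSet_finite (N n : ℕ) (τ : ℍ) : (genSet N n τ).Finite :=
  (Finset.finite_toSet _).image _

theorem JfFun_int_mem (u v : ℤ) (τ : ℍ) :
    JfFun N n u v τ ∈ Submodule.span ℤ (genSet N n τ) := by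
  obtain ⟨P, hdeg, hP⟩ := J_int (h := 1) n u v
  have key : JfFun N n u v τ = ∑ m ∈ Finset.range (n + 1), ∑ j ∈ Finset.range (n + 1),
      ((P m).coeff j) • (((τ : ℂ) ^ j) • evIter N n (m + 1) τ) := by
    ext f
    simp only [JfFun_apply, Jf, hP, LinearMap.coe_sum, Finset.sum_apply, LinearMap.smul_apply,
      evIter, LinearMap.coe_mk, AddHom.coe_mk, smul_eq_mul, zsmul_eq_mul]
    refine Finset.sum_congr rfl fun m _ => ?_
    rw [Polynomial.eval_eq_sum_range' (n := n + 1)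
      (by rw [Polynomial.natDegree_map_eq_of_injective Int.cast_injective]
          exact Nat.lt_succ_of_le (hdeg m)), Finset.sum_mul]
    refine Finset.sum_congr rfl fun j _ => ?_
    simp
    ring
  rw [key]
  refine Submodule.sum_mem _ fun m hm => Submodule.sum_mem _ fun j hj => ?_
  refine Submodule.smul_mem _ _ (Submodule.subset_span ?_)
  exact ⟨(j, m), by simp [Finset.mem_range.mp hm, Finset.mem_range.mp hj], rfl⟩

end Gamma0

section Gamma0

variable {N : ℕ} {n : ℕ}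

theorem mob_mapGL_coe (γ : SL(2, ℤ)) (τ : ℍ) : mob (mapGL ℝ γ) τ = ((mapGL ℝ γ • τ : ℍ) : ℂ) :=
  mob_eq_coe_smul (det_mapGL_pos γ) τ.im_pos

/-- The period functional attached to `γ` and the vector `(u, v)`. -/
def perFun (N n : ℕ) (γ : SL(2, ℤ)) (u v : ℂ) :
    CuspForm (CongruenceSubgroup.Gamma0 N : Subgroup (GL (Fin 2) ℝ)) ((n : ℤ) + 2) →ₗ[ℂ] ℂ :=
  JfFun N n (actU (mapGL ℝ γ) u v) (actV (mapGL ℝ γ) u v) (mapGL ℝ γ • UpperHalfPlane.I) -
    JfFun N n u v UpperHalfPlane.I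

theorem perFun_apply (γ : SL(2, ℤ)) (u v : ℂ)
    (f : CuspForm (CongruenceSubgroup.Gamma0 N : Subgroup (GL (Fin 2) ℝ)) ((n : ℤ) + 2)) :
    perFun N n γ u v f =
      Jf f (actU (mapGL ℝ γ) u v) (actV (mapGL ℝ γ) u v) (mob (mapGL ℝ γ) UpperHalfPlane.I) -
        Jf f u v UpperHalfPlane.I := by
  rw [mob_mapGL_coe]
  rfl

/-- The period can be computed at any base point. -/
theorem perFun_eq {γ : SL(2, ℤ)} (hγ : γ ∈ CongruenceSubgroup.Gamma0 N) (u v : ℂ)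
    (f : CuspForm (CongruenceSubgroup.Gamma0 N : Subgroup (GL (Fin 2) ℝ)) ((n : ℤ) + 2))
    {z : ℂ} (hz : 0 < z.im) :
    Jf f (actU (mapGL ℝ γ) u v) (actV (mapGL ℝ γ) u v) (mob (mapGL ℝ γ) z) - Jf f u v z =
      perFun N n γ u v f := by
  rw [perFun_apply]
  exact Jf_mob_sub_const f hγ u v hz UpperHalfPlane.I.im_pos

theorem perFun_one (u v : ℂ) : perFun N n 1 u v = 0 := by
  ext f
  rw [perFun_apply]
  simp [mob, num, denom]

theorem perFun_mul {γ : SL(2, ℤ)} (hγ : γ ∈ CongruenceSubgroup.Gamma0 N) (γ' : SL(2, ℤ))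
    (u v : ℂ) :
    perFun N n (γ * γ') u v =
      perFun N n γ (actU (mapGL ℝ γ') u v) (actV (mapGL ℝ γ') u v) + perFun N n γ' u v := by
  ext f
  rw [LinearMap.add_apply, perFun_apply, map_mul, actU_mul, actV_mul,
    mob_mul (det_mapGL_pos γ) (det_mapGL_pos γ') UpperHalfPlane.I.im_pos,
    ← perFun_eq hγ _ _ f (mob_im_pos (det_mapGL_pos γ') UpperHalfPlane.I.im_pos),
    perFun_apply (n := n) γ']
  ring

theorem perFun_inv {γ : SL(2, ℤ)} (hγ : γ ∈ CongruenceSubgroup.Gamma0 N) (u v : ℂ) :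
    perFun N n γ⁻¹ u v =
      -perFun N n γ (actU (mapGL ℝ γ⁻¹) u v) (actV (mapGL ℝ γ⁻¹) u v) := by
  have h := perFun_mul (n := n) hγ γ⁻¹ u v
  rw [mul_inv_cancel, perFun_one] at h
  exact eq_neg_of_add_eq_zero_right h.symm

theorem actU_mapGL_int (γ : SL(2, ℤ)) (u v : ℤ) :
    actU (mapGL ℝ γ) u v = ((γ 0 0 * u + γ 0 1 * v : ℤ) : ℂ) := by
  simp [actU]

theorem actV_mapGL_int (γ : SL(2, ℤ)) (u v : ℤ) :
    actV (mapGL ℝ γ) u v = ((γ 1 0 * u + γ 1 1 * v : ℤ) : ℂ) := by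
  simp [actV]

/-- The period lattice. -/
def perLattice (N n : ℕ) : Submodule ℤ
    (Module.Dual ℂ (CuspForm (CongruenceSubgroup.Gamma0 N : Subgroup (GL (Fin 2) ℝ)) ((n : ℤ) + 2))) :=
  Submodule.span ℤ {φ | ∃ γ ∈ CongruenceSubgroup.Gamma0 N, ∃ u v : ℤ, φ = perFun N n γ u v}

theorem perFun_int_mem_span (γ : SL(2, ℤ)) (u v : ℤ) :
    perFun N n γ u v ∈ Submodule.span ℤ
      (genSet N n (mapGL ℝ γ • UpperHalfPlane.I) ∪ genSet N n UpperHalfPlane.I) := by
  unfold perFun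
  rw [actU_mapGL_int, actV_mapGL_int]
  refine Submodule.sub_mem _ ?_ ?_
  · exact Submodule.span_mono Set.subset_union_left (JfFun_int_mem _ _ _)
  · exact Submodule.span_mono Set.subset_union_right (JfFun_int_mem _ _ _)

theorem perLattice_fg [NeZero N] : (perLattice N n).FG := by
  classical
  obtain ⟨S, hS⟩ := exists_finset_closure_eq_Gamma0 N
  -- the ambient finitely generated module
  let T : Set (CuspForm (CongruenceSubgroup.Gamma0 N : Subgroup (GL (Fin 2) ℝ))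
      ((n : ℤ) + 2) →ₗ[ℂ] ℂ) :=
    (⋃ g ∈ S, genSet N n (mapGL ℝ g • UpperHalfPlane.I)) ∪ genSet N n UpperHalfPlane.I
  have hT : T.Finite :=
    (Set.Finite.biUnion S.finite_toSet fun g _ => genSet_finite N n _).union (genSet_finite N n _)
  have hM : (Submodule.span ℤ T).FG := Submodule.fg_span hT
  have hSmem : ∀ g ∈ S, g ∈ CongruenceSubgroup.Gamma0 N := fun g hg =>
    hS ▸ Subgroup.subset_closure hg
  have key : ∀ γ ∈ Subgroup.closure (S : Set SL(2, ℤ)), ∀ u v : ℤ,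
      perFun N n γ u v ∈ Submodule.span ℤ T := by
    intro γ hγ
    induction hγ using Subgroup.closure_induction with
    | mem x hx =>
      intro u v
      refine Submodule.span_mono ?_ (perFun_int_mem_span x u v)
      refine Set.union_subset_union_left _ ?_
      exact Set.subset_biUnion_of_mem (u := fun g => genSet N n (mapGL ℝ g • UpperHalfPlane.I)) hx
    | one =>
      intro u v
      rw [perFun_one]
      exact Submodule.zero_mem _
    | mul x y hx hy ihx ihy =>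
      intro u v
      rw [perFun_mul (hS ▸ hx) y, actU_mapGL_int, actV_mapGL_int]
      exact Submodule.add_mem _ (ihx _ _) (ihy _ _)
    | inv x hx ihx =>
      intro u v
      rw [perFun_inv (hS ▸ hx), actU_mapGL_int, actV_mapGL_int]
      exact Submodule.neg_mem _ (ihx _ _)
  have hle : perLattice N n ≤ Submodule.span ℤ T := by
    refine Submodule.span_le.mpr ?_
    rintro φ ⟨γ, hγ, u, v, rfl⟩
    exact key γ (hS ▸ hγ) u v
  exact hM.of_le hle

end Gamma0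

theorem poly_eq_zero_of_int {P : Polynomial ℂ} (h : ∀ m : ℤ, P.eval (m : ℂ) = 0) : P = 0 := by
  refine Polynomial.eq_zero_of_infinite_isRoot P ?_
  refine Set.Infinite.mono (s := Set.range (fun m : ℤ => (m : ℂ))) ?_ ?_
  · rintro _ ⟨m, rfl⟩
    exact h m
  · exact Set.infinite_range_of_injective Int.cast_injective

section Gamma0

variable {N : ℕ} {n : ℕ}

/-- `perFun γ u v f` depends polynomially on `u`. -/
theorem perFun_poly_u (γ : SL(2, ℤ)) (v : ℂ)
    (f : CuspForm (CongruenceSubgroup.Gamma0 N : Subgroup (GL (Fin 2) ℝ)) ((n : ℤ) + 2)) :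
    ∃ P : Polynomial ℂ, ∀ u : ℂ, perFun N n γ u v f = P.eval u := by
  obtain ⟨P₁, h₁⟩ := J_poly n (cd f) (((mapGL ℝ γ) 0 0 : ℝ) : ℂ) ((((mapGL ℝ γ) 0 1 : ℝ) : ℂ) * v)
    (((mapGL ℝ γ) 1 0 : ℝ) : ℂ) ((((mapGL ℝ γ) 1 1 : ℝ) : ℂ) * v) (mob (mapGL ℝ γ) UpperHalfPlane.I)
  obtain ⟨P₂, h₂⟩ := J_poly n (cd f) 1 0 0 v UpperHalfPlane.I
  refine ⟨P₁ - P₂, fun u => ?_⟩
  rw [perFun_apply, Polynomial.eval_sub, ← h₁, ← h₂]
  simp only [Jf, actU, actV]
  ring_nf

/-- `perFun γ u v f` depends polynomially on `v`. -/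
theorem perFun_poly_v (γ : SL(2, ℤ)) (u : ℂ)
    (f : CuspForm (CongruenceSubgroup.Gamma0 N : Subgroup (GL (Fin 2) ℝ)) ((n : ℤ) + 2)) :
    ∃ P : Polynomial ℂ, ∀ v : ℂ, perFun N n γ u v f = P.eval v := by
  obtain ⟨P₁, h₁⟩ := J_poly n (cd f) (((mapGL ℝ γ) 0 1 : ℝ) : ℂ) ((((mapGL ℝ γ) 0 0 : ℝ) : ℂ) * u)
    (((mapGL ℝ γ) 1 1 : ℝ) : ℂ) ((((mapGL ℝ γ) 1 0 : ℝ) : ℂ) * u) (mob (mapGL ℝ γ) UpperHalfPlane.I)
  obtain ⟨P₂, h₂⟩ := J_poly n (cd f) 0 u 1 0 UpperHalfPlane.I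
  refine ⟨P₁ - P₂, fun v => ?_⟩
  rw [perFun_apply, Polynomial.eval_sub, ← h₁, ← h₂]
  simp only [Jf, actU, actV]
  ring_nf

/-- Vanishing of all integral periods implies vanishing of all complex periods. -/
theorem perFun_eq_zero_of_int (γ : SL(2, ℤ))
    (f : CuspForm (CongruenceSubgroup.Gamma0 N : Subgroup (GL (Fin 2) ℝ)) ((n : ℤ) + 2))
    (h : ∀ u v : ℤ, perFun N n γ u v f = 0) (u v : ℂ) : perFun N n γ u v f = 0 := by
  -- first extend in `u`, for integral `v`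
  have h1 : ∀ (v : ℤ) (u : ℂ), perFun N n γ u v f = 0 := by
    intro v u
    obtain ⟨P, hP⟩ := perFun_poly_u γ (v : ℂ) f
    have : P = 0 := poly_eq_zero_of_int fun m => by rw [← hP]; exact h m v
    rw [hP, this, Polynomial.eval_zero]
  obtain ⟨P, hP⟩ := perFun_poly_v γ u f
  have : P = 0 := poly_eq_zero_of_int fun m => by rw [← hP]; exact h1 m u
  rw [hP, this, Polynomial.eval_zero]

end Gamma0

end Fermat.Agent.S22.H11

end
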