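import Mathlib

set_option autoImplicit false

noncomputable section

namespace Fermat.Agent.S22.H11

open Complex Filter Function Metric Set Topology
open scoped Real

/-- A holomorphic function `G` on the unit disc with `G 0 = 0`, together with a positive
period `h`: it encodes the `h`-periodic function `z ↦ G (exp (2πi z / h))`. -/
structure CuspData (h : ℝ) where
  hpos : 0 < h
  G : ℂ → ℂ
  diff : DifferentiableOn ℂ G (ball 0 1)
  zero : G 0 = 0

namespace CuspData

variable {h : ℝ}

/-- The periodic function on `ℂ` attached to cusp data. -/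
def fn (D : CuspData h) (z : ℂ) : ℂ := D.G (Periodic.qParam h z)

theorem hasDerivAt_qParam (h : ℝ) (z : ℂ) :
    HasDerivAt (Periodic.qParam h) (Periodic.qParam h z * (2 * π * I / h)) z := by
  unfold Periodic.qParam
  have h1 : HasDerivAt (fun z : ℂ => 2 * π * I * z / h) (2 * π * I / h) z := by
    have := ((hasDerivAt_id z).const_mul (2 * π * I)).div_const (h : ℂ)
    simpa using this
  exact h1.cexp

theorem exists_prim (D : CuspData h) :
    ∃ D' : CuspData h, ∀ z : ℂ, 0 < z.im → HasDerivAt D'.fn (D.fn z) z := by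
  have hh : (h : ℂ) ≠ 0 := by exact_mod_cast D.hpos.ne'
  have hd : DifferentiableOn ℂ (dslope D.G 0) (ball 0 1) :=
    (differentiableOn_dslope (isOpen_ball.mem_nhds (mem_ball_self one_pos))).mpr D.diff
  have hd' : DifferentiableOn ℂ (fun q => (h / (2 * π * I)) * dslope D.G 0 q) (ball 0 1) :=
    hd.const_mul _
  obtain ⟨G₁, hG₁0, hG₁⟩ := (hd'.isExactOn_ball).with_val_at 0 0
  refine ⟨⟨D.hpos, G₁, ?_, hG₁0⟩, ?_⟩
  · intro q hq
    exact (hG₁ q hq).differentiableAt.differentiableWithinAt
  · intro z hz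
    have hq : Periodic.qParam h z ∈ ball (0 : ℂ) 1 := by
      rw [mem_ball_zero_iff]
      exact Periodic.norm_qParam_lt_one D.hpos hz
    have hq0 : Periodic.qParam h z ≠ 0 := Periodic.qParam_ne_zero z
    have h1 := (hG₁ _ hq).comp z (hasDerivAt_qParam h z)
    have h2 : h / (2 * π * I) * dslope D.G 0 (Periodic.qParam h z) *
        (Periodic.qParam h z * (2 * π * I / h)) = D.fn z := by
      rw [dslope_of_ne _ hq0, slope_def_field, D.zero, fn]
      have hpi : (2 * π * I : ℂ) ≠ 0 := by
        simp [Real.pi_ne_zero]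
      field_simp
      ring
    rw [h2] at h1
    exact h1

/-- A chosen primitive of cusp data. -/
noncomputable def prim (D : CuspData h) : CuspData h := Classical.choose D.exists_prim

theorem hasDerivAt_prim (D : CuspData h) {z : ℂ} (hz : 0 < z.im) :
    HasDerivAt D.prim.fn (D.fn z) z :=
  Classical.choose_spec D.exists_prim z hz

/-- Iterated primitives. -/
noncomputable def iter (D : CuspData h) : ℕ → CuspData h
  | 0 => D
  | m + 1 => (iter D m).prim

@[simp] theorem iter_zero (D : CuspData h) : D.iter 0 = D := rfl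

theorem iter_succ (D : CuspData h) (m : ℕ) : D.iter (m + 1) = (D.iter m).prim := rfl

theorem iter_succ' (D : CuspData h) (m : ℕ) : D.iter (m + 1) = D.prim.iter m := by
  induction m with
  | zero => rfl
  | succ m ih => rw [iter_succ, ih, ← iter_succ]

theorem hasDerivAt_iter_succ (D : CuspData h) (m : ℕ) {z : ℂ} (hz : 0 < z.im) :
    HasDerivAt (D.iter (m + 1)).fn ((D.iter m).fn z) z :=
  hasDerivAt_prim _ hz

end CuspData

namespace CuspData

variable {h : ℝ}

/-- Exponential decay of the periodic function attached to cusp data. -/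
theorem exists_bound (D : CuspData h) :
    ∃ C : ℝ, 0 ≤ C ∧ ∀ z : ℂ, 1 ≤ z.im → ‖D.fn z‖ ≤ C * Real.exp (-2 * π * z.im / h) := by
  set r : ℝ := Real.exp (-2 * π / h) with hr
  have hr0 : 0 < r := Real.exp_pos _
  have hr1 : r < 1 := by
    rw [hr, Real.exp_lt_one_iff]
    have : 0 < 2 * π / h := div_pos Real.two_pi_pos D.hpos
    have h2 : -2 * π / h = -(2 * π / h) := by ring
    rw [h2]
    linarith
  have hsub : closedBall (0 : ℂ) r ⊆ ball 0 1 := closedBall_subset_ball hr1
  have hd : DifferentiableOn ℂ (dslope D.G 0) (ball 0 1) :=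
    (differentiableOn_dslope (isOpen_ball.mem_nhds (mem_ball_self one_pos))).mpr D.diff
  have hc : ContinuousOn (dslope D.G 0) (closedBall 0 r) := hd.continuousOn.mono hsub
  obtain ⟨C, hC⟩ := (isCompact_closedBall (0 : ℂ) r).exists_bound_of_continuousOn hc
  refine ⟨max C 0, le_max_right _ _, ?_⟩
  intro z hz
  have hq : ‖Periodic.qParam h z‖ = Real.exp (-2 * π * z.im / h) := Periodic.norm_qParam h z
  have hqr : Periodic.qParam h z ∈ closedBall (0 : ℂ) r := by
    rw [mem_closedBall_zero_iff, hq, hr, Real.exp_le_exp]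
    have h3 : -2 * π * z.im / h = -(2 * π / h) * z.im := by ring
    have h4 : -2 * π / h = -(2 * π / h) * 1 := by ring
    rw [h3, h4]
    have : 0 < 2 * π / h := div_pos Real.two_pi_pos D.hpos
    nlinarith
  have hG : D.G (Periodic.qParam h z) = Periodic.qParam h z * dslope D.G 0 (Periodic.qParam h z) := by
    have := sub_smul_dslope D.G 0 (Periodic.qParam h z)
    simp only [sub_zero, smul_eq_mul, D.zero] at this
    exact this.symm
  rw [fn, hG, norm_mul, hq, mul_comm]
  exact mul_le_mul_of_nonneg_right ((hC _ hqr).trans (le_max_left _ _)) (Real.exp_pos _).le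

end CuspData

/-- Rapid decay along every vertical line. -/
def VDecay (F : ℂ → ℂ) : Prop :=
  ∀ (x : ℝ) (m : ℕ), Tendsto (fun y : ℝ => y ^ m * ‖F (x + y * I)‖) atTop (𝓝 0)

namespace VDecay

variable {F G : ℂ → ℂ}

theorem zero : VDecay (fun _ => 0) := by
  intro x m
  simp

theorem add (hF : VDecay F) (hG : VDecay G) : VDecay (fun z => F z + G z) := by
  intro x m
  have h0 := (hF x m).add (hG x m)
  rw [add_zero] at h0
  refine squeeze_zero' ?_ ?_ h0
  · filter_upwards [eventually_ge_atTop 0] with y hy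
    positivity
  · filter_upwards [eventually_ge_atTop 0] with y hy
    rw [← mul_add]
    exact mul_le_mul_of_nonneg_left (norm_add_le _ _) (pow_nonneg hy m)

theorem const_mul (c : ℂ) (hF : VDecay F) : VDecay (fun z => c * F z) := by
  intro x m
  have h0 := (hF x m).const_mul ‖c‖
  rw [mul_zero] at h0
  refine h0.congr fun y => ?_
  rw [norm_mul]
  ring

theorem neg (hF : VDecay F) : VDecay (fun z => -F z) := by
  simpa using hF.const_mul (-1)

theorem sub (hF : VDecay F) (hG : VDecay G) : VDecay (fun z => F z - G z) := by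
  simpa [sub_eq_add_neg] using hF.add hG.neg

theorem linear_mul (u v : ℂ) (hF : VDecay F) : VDecay (fun z => (v * z - u) * F z) := by
  intro x m
  have h1 := ((hF x m).const_mul (‖v‖ * |x| + ‖u‖))
  have h2 := ((hF x (m + 1)).const_mul ‖v‖)
  have h0 := h1.add h2
  simp only [mul_zero, add_zero] at h0
  refine squeeze_zero' ?_ ?_ h0
  · filter_upwards [eventually_ge_atTop 0] with y hy
    positivity
  · filter_upwards [eventually_ge_atTop 0] with y hy
    rw [norm_mul]
    have hb : ‖v * ((x : ℂ) + y * I) - u‖ ≤ ‖v‖ * |x| + ‖u‖ + ‖v‖ * y := by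
      calc ‖v * ((x : ℂ) + y * I) - u‖ ≤ ‖v * ((x : ℂ) + y * I)‖ + ‖u‖ := norm_sub_le _ _
        _ ≤ ‖v‖ * (|x| + y) + ‖u‖ := by
          rw [norm_mul]
          gcongr
          calc ‖(x : ℂ) + y * I‖ ≤ ‖(x : ℂ)‖ + ‖(y : ℂ) * I‖ := norm_add_le _ _
            _ = |x| + y := by
              rw [norm_mul, Complex.norm_I, mul_one, Complex.norm_real, Complex.norm_real,
                Real.norm_eq_abs, Real.norm_eq_abs, abs_of_nonneg hy]
        _ = ‖v‖ * |x| + ‖u‖ + ‖v‖ * y := by ring
    have hF0 : 0 ≤ ‖F ((x : ℂ) + y * I)‖ := norm_nonneg _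
    have hy0 : 0 ≤ y ^ m := pow_nonneg hy m
    calc y ^ m * (‖v * ((x : ℂ) + y * I) - u‖ * ‖F ((x : ℂ) + y * I)‖)
        ≤ y ^ m * ((‖v‖ * |x| + ‖u‖ + ‖v‖ * y) * ‖F ((x : ℂ) + y * I)‖) := by gcongr
      _ = (‖v‖ * |x| + ‖u‖) * (y ^ m * ‖F ((x : ℂ) + y * I)‖) +
          ‖v‖ * (y ^ (m + 1) * ‖F ((x : ℂ) + y * I)‖) := by ring

theorem linear_pow_mul (u v : ℂ) (j : ℕ) (hF : VDecay F) :
    VDecay (fun z => (v * z - u) ^ j * F z) := by
  induction j with
  | zero => simpa using hF
  | succ j ih =>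
    have := ih.linear_mul u v
    refine fun x m => (this x m).congr fun y => ?_
    simp only [pow_succ]
    ring_nf

/-- Precomposition with `z ↦ a z + b`, `a > 0`, `b` real. -/
theorem comp_affine (a b : ℝ) (ha : 0 < a) (hF : VDecay F) :
    VDecay (fun z => F (a * z + b)) := by
  intro x m
  have h1 : Tendsto (fun y : ℝ => a * y) atTop atTop := tendsto_id.const_mul_atTop ha
  have h2 := ((hF (a * x + b) m).comp h1).const_mul ((a ^ m)⁻¹)
  rw [mul_zero] at h2
  refine h2.congr fun y => ?_
  simp only [Function.comp]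
  have : (a : ℂ) * ((x : ℂ) + y * I) + b = ((a * x + b : ℝ) : ℂ) + ((a * y : ℝ) : ℂ) * I := by
    push_cast
    ring
  rw [this, mul_pow]
  have ha' : a ^ m ≠ 0 := pow_ne_zero _ ha.ne'
  field_simp

end VDecay

theorem CuspData.vdecay {h : ℝ} (D : CuspData h) : VDecay D.fn := by
  obtain ⟨C, hC0, hC⟩ := D.exists_bound
  intro x m
  set c : ℝ := 2 * π / h with hc
  have hcpos : 0 < c := div_pos Real.two_pi_pos D.hpos
  have h1 : Tendsto (fun y : ℝ => c * y) atTop atTop := tendsto_id.const_mul_atTop hcpos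
  have h2 := ((Real.tendsto_pow_mul_exp_neg_atTop_nhds_zero m).comp h1).const_mul (C * (c ^ m)⁻¹)
  rw [mul_zero] at h2
  refine squeeze_zero' ?_ ?_ h2
  · filter_upwards [eventually_ge_atTop 0] with y hy
    positivity
  · filter_upwards [eventually_ge_atTop 1] with y hy
    have hy0 : 0 ≤ y := by linarith
    have him : ((x : ℂ) + y * I).im = y := by simp
    have hb := hC ((x : ℂ) + y * I) (by rw [him]; exact hy)
    rw [him] at hb
    simp only [Function.comp]
    have hexp : -2 * π * y / h = -(c * y) := by rw [hc]; ring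
    rw [hexp] at hb
    have hcm : c ^ m ≠ 0 := pow_ne_zero _ hcpos.ne'
    calc y ^ m * ‖D.fn ((x : ℂ) + y * I)‖ ≤ y ^ m * (C * Real.exp (-(c * y))) := by
          gcongr
      _ = C * (c ^ m)⁻¹ * ((c * y) ^ m * Real.exp (-(c * y))) := by
          rw [mul_pow]
          field_simp

/-- The open upper half plane as a subset of `ℂ`. -/
def uhp : Set ℂ := {z : ℂ | 0 < z.im}

theorem isOpen_uhp : IsOpen uhp := isOpen_lt continuous_const Complex.continuous_im

theorem isPreconnected_uhp : IsPreconnected uhp :=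
  (convex_halfSpace_im_gt 0).isPreconnected

theorem mem_uhp {z : ℂ} : z ∈ uhp ↔ 0 < z.im := Iff.rfl

/-- A function on the upper half plane with zero derivative is constant. -/
theorem eq_of_hasDerivAt_zero {F : ℂ → ℂ} (hF : ∀ z, 0 < z.im → HasDerivAt F 0 z)
    {z w : ℂ} (hz : 0 < z.im) (hw : 0 < w.im) : F z = F w := by
  refine isOpen_uhp.is_const_of_deriv_eq_zero isPreconnected_uhp ?_ ?_ hz hw
  · intro x hx
    exact (hF x hx).differentiableAt.differentiableWithinAt
  · intro x hx
    exact (hF x hx).deriv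

/-- Two primitives of the same function differ by a constant on the upper half plane. -/
theorem sub_eq_sub_of_hasDerivAt {F₁ F₂ g : ℂ → ℂ} (h1 : ∀ z, 0 < z.im → HasDerivAt F₁ (g z) z)
    (h2 : ∀ z, 0 < z.im → HasDerivAt F₂ (g z) z) {z w : ℂ} (hz : 0 < z.im) (hw : 0 < w.im) :
    F₁ z - F₂ z = F₁ w - F₂ w := by
  have := eq_of_hasDerivAt_zero (F := fun z => F₁ z - F₂ z)
    (fun z hz => by simpa using (h1 z hz).fun_sub (h2 z hz)) hz hw
  exact this

/-- Uniqueness of vertically decaying primitives. -/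
theorem eq_of_hasDerivAt_of_vdecay {F₁ F₂ g : ℂ → ℂ}
    (h1 : ∀ z, 0 < z.im → HasDerivAt F₁ (g z) z) (h2 : ∀ z, 0 < z.im → HasDerivAt F₂ (g z) z)
    (d1 : VDecay F₁) (d2 : VDecay F₂) {z : ℂ} (hz : 0 < z.im) : F₁ z = F₂ z := by
  have hd : VDecay (fun z => F₁ z - F₂ z) := d1.sub d2
  have ht := hd z.re 0
  simp only [pow_zero, one_mul] at ht
  -- the difference is constant along the vertical line
  have hconst : ∀ y : ℝ, 0 < y → F₁ ((z.re : ℂ) + y * I) - F₂ ((z.re : ℂ) + y * I) = F₁ z - F₂ z := by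
    intro y hy
    have hy' : 0 < ((z.re : ℂ) + y * I).im := by simpa using hy
    exact sub_eq_sub_of_hasDerivAt h1 h2 hy' hz
  have ht' : Tendsto (fun _ : ℝ => ‖F₁ z - F₂ z‖) atTop (𝓝 0) := by
    refine ht.congr' ?_
    filter_upwards [eventually_gt_atTop 0] with y hy
    rw [hconst y hy]
  have h0 : ‖F₁ z - F₂ z‖ = 0 := tendsto_nhds_unique tendsto_const_nhds ht'
  exact sub_eq_zero.mp (norm_eq_zero.mp h0)

variable {h : ℝ}

/-- The decaying primitive of `(v z - u)^n * D.fn z`. -/
def J : ℕ → CuspData h → ℂ → ℂ → ℂ → ℂ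
  | 0, D, _, _, z => D.prim.fn z
  | n + 1, D, u, v, z => (v * z - u) ^ (n + 1) * D.prim.fn z - (n + 1) * v * J n D.prim u v z

@[simp] theorem J_zero (D : CuspData h) (u v z : ℂ) : J 0 D u v z = D.prim.fn z := rfl

theorem J_succ (n : ℕ) (D : CuspData h) (u v z : ℂ) :
    J (n + 1) D u v z = (v * z - u) ^ (n + 1) * D.prim.fn z - (n + 1) * v * J n D.prim u v z := rfl

theorem hasDerivAt_J (n : ℕ) (D : CuspData h) (u v : ℂ) {z : ℂ} (hz : 0 < z.im) :
    HasDerivAt (J n D u v) ((v * z - u) ^ n * D.fn z) z := by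
  induction n generalizing D with
  | zero =>
    have : J 0 D u v = D.prim.fn := by funext z; rfl
    rw [this]
    simpa using D.hasDerivAt_prim hz
  | succ n ih =>
    have hJ : J (n + 1) D u v = fun z => (v * z - u) ^ (n + 1) * D.prim.fn z -
        (n + 1) * v * J n D.prim u v z := by funext z; rfl
    rw [hJ]
    have h1 : HasDerivAt (fun z : ℂ => v * z - u) v z := by
      simpa using ((hasDerivAt_id z).const_mul v).sub_const u
    have h2 := (h1.pow (n + 1)).mul (D.hasDerivAt_prim hz)
    have h3 := (ih D.prim).const_mul (((n : ℂ) + 1) * v)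
    have h4 := h2.sub h3
    refine h4.congr_deriv ?_
    simp only [Nat.add_sub_cancel, Nat.cast_add, Nat.cast_one, Pi.pow_apply]
    ring

theorem vdecay_J (n : ℕ) (D : CuspData h) (u v : ℂ) : VDecay (J n D u v) := by
  induction n generalizing D with
  | zero =>
    have : J 0 D u v = D.prim.fn := by funext z; rfl
    rw [this]
    exact D.prim.vdecay
  | succ n ih =>
    have hJ : J (n + 1) D u v = fun z => (v * z - u) ^ (n + 1) * D.prim.fn z -
        (n + 1) * v * J n D.prim u v z := by funext z; rfl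
    rw [hJ]
    exact (D.prim.vdecay.linear_pow_mul u v (n + 1)).sub ((ih D.prim).const_mul _)

theorem J_closed (n : ℕ) (D : CuspData h) (u v z : ℂ) :
    J n D u v z = ∑ m ∈ Finset.range (n + 1),
      (-1) ^ m * (n.descFactorial m : ℂ) * v ^ m * (v * z - u) ^ (n - m) * (D.iter (m + 1)).fn z := by
  induction n generalizing D with
  | zero => simp [CuspData.iter_succ]
  | succ n ih =>
    rw [J_succ, ih D.prim, Finset.sum_range_succ' _ (n + 1), Finset.mul_sum]
    simp only [Nat.descFactorial_zero, Nat.cast_one, pow_zero, mul_one, Nat.sub_zero, one_mul,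
      zero_add]
    rw [sub_eq_add_neg, add_comm, ← Finset.sum_neg_distrib]
    congr 1
    refine Finset.sum_congr rfl fun m _ => ?_
    rw [Nat.succ_descFactorial_succ, Nat.add_sub_add_right, ← CuspData.iter_succ' D (m + 1)]
    push_cast
    ring

theorem J_diag (n : ℕ) (D : CuspData h) (z : ℂ) :
    J n D z 1 z = (-1) ^ n * (n.factorial : ℂ) * (D.iter (n + 1)).fn z := by
  rw [J_closed, Finset.sum_eq_single n]
  · simp [Nat.descFactorial_self]
  · intro m hm hmn
    have hlt : m < n := lt_of_le_of_ne (Nat.lt_succ_iff.mp (Finset.mem_range.mp hm)) hmn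
    have : (1 * z - z) ^ (n - m) = 0 := by
      rw [one_mul, sub_self, zero_pow (Nat.sub_ne_zero_of_lt hlt)]
    rw [this]
    ring
  · intro hn
    exact absurd (Finset.mem_range.mpr (Nat.lt_succ_self n)) hn

theorem J_smul (n : ℕ) (D : CuspData h) (c u v z : ℂ) :
    J n D (c * u) (c * v) z = c ^ n * J n D u v z := by
  induction n generalizing D with
  | zero => simp
  | succ n ih =>
    rw [J_succ, J_succ, ih D.prim]
    have : c * v * z - c * u = c * (v * z - u) := by ring
    rw [this, mul_pow]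
    ring

theorem J_poly (n : ℕ) (D : CuspData h) (a b c d z : ℂ) :
    ∃ P : Polynomial ℂ, ∀ t : ℂ, J n D (a * t + b) (c * t + d) z = P.eval t := by
  induction n generalizing D with
  | zero => exact ⟨Polynomial.C (D.prim.fn z), fun t => by simp⟩
  | succ n ih =>
    obtain ⟨P, hP⟩ := ih D.prim
    refine ⟨((Polynomial.C c * Polynomial.X + Polynomial.C d) * Polynomial.C z -
      (Polynomial.C a * Polynomial.X + Polynomial.C b)) ^ (n + 1) * Polynomial.C (D.prim.fn z) -
      Polynomial.C ((n : ℂ) + 1) * (Polynomial.C c * Polynomial.X + Polynomial.C d) * P, fun t => ?_⟩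
    rw [J_succ, hP]
    simp

theorem J_int (n : ℕ) (u v : ℤ) :
    ∃ P : ℕ → Polynomial ℤ, (∀ m, (P m).natDegree ≤ n) ∧ ∀ (D : CuspData h) (z : ℂ),
      J n D u v z = ∑ m ∈ Finset.range (n + 1),
        ((P m).map (Int.castRingHom ℂ)).eval z * (D.iter (m + 1)).fn z := by
  refine ⟨fun m => Polynomial.C ((-1) ^ m * (n.descFactorial m : ℤ) * v ^ m) *
    (Polynomial.C v * Polynomial.X - Polynomial.C u) ^ (n - m), fun m => ?_, fun D z => ?_⟩
  · refine (Polynomial.natDegree_C_mul_le _ _).trans ?_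
    refine (Polynomial.natDegree_pow_le).trans ?_
    have h1 : (Polynomial.C v * Polynomial.X - Polynomial.C u : Polynomial ℤ).natDegree ≤ 1 := by
      rw [Polynomial.natDegree_sub_C]
      exact (Polynomial.natDegree_C_mul_le _ _).trans Polynomial.natDegree_X_le
    calc (n - m) * (Polynomial.C v * Polynomial.X - Polynomial.C u : Polynomial ℤ).natDegree
        ≤ (n - m) * 1 := Nat.mul_le_mul_left _ h1
      _ ≤ n := by omega
  · rw [J_closed]
    refine Finset.sum_congr rfl fun m _ => ?_
    simp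

namespace CuspData

theorem iter_fn_add {D₁ D₂ D₃ : CuspData h}
    (H : ∀ z : ℂ, 0 < z.im → D₃.fn z = D₁.fn z + D₂.fn z) (m : ℕ) :
    ∀ z : ℂ, 0 < z.im → (D₃.iter m).fn z = (D₁.iter m).fn z + (D₂.iter m).fn z := by
  induction m with
  | zero => exact H
  | succ m ih =>
    intro z hz
    refine eq_of_hasDerivAt_of_vdecay (g := fun z => (D₃.iter m).fn z)
      (fun w hw => D₃.hasDerivAt_iter_succ m hw) (fun w hw => ?_) (CuspData.vdecay _)
      ((CuspData.vdecay _).add (CuspData.vdecay _)) hz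
    have := (D₁.hasDerivAt_iter_succ m hw).fun_add (D₂.hasDerivAt_iter_succ m hw)
    rw [← ih w hw] at this
    exact this

theorem iter_fn_smul {D₁ D₂ : CuspData h} (c : ℂ)
    (H : ∀ z : ℂ, 0 < z.im → D₂.fn z = c * D₁.fn z) (m : ℕ) :
    ∀ z : ℂ, 0 < z.im → (D₂.iter m).fn z = c * (D₁.iter m).fn z := by
  induction m with
  | zero => exact H
  | succ m ih =>
    intro z hz
    refine eq_of_hasDerivAt_of_vdecay (g := fun z => (D₂.iter m).fn z)
      (fun w hw => D₂.hasDerivAt_iter_succ m hw) (fun w hw => ?_) (CuspData.vdecay _)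
      ((CuspData.vdecay _).const_mul c) hz
    have := (D₁.hasDerivAt_iter_succ m hw).const_mul c
    rw [← ih w hw] at this
    exact this

end CuspData

theorem J_add {D₁ D₂ D₃ : CuspData h}
    (H : ∀ z : ℂ, 0 < z.im → D₃.fn z = D₁.fn z + D₂.fn z) (n : ℕ) (u v : ℂ) {z : ℂ}
    (hz : 0 < z.im) : J n D₃ u v z = J n D₁ u v z + J n D₂ u v z := by
  rw [J_closed, J_closed, J_closed, ← Finset.sum_add_distrib]
  refine Finset.sum_congr rfl fun m _ => ?_
  rw [CuspData.iter_fn_add H (m + 1) z hz]
  ring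

theorem J_const_mul {D₁ D₂ : CuspData h} (c : ℂ)
    (H : ∀ z : ℂ, 0 < z.im → D₂.fn z = c * D₁.fn z) (n : ℕ) (u v : ℂ) {z : ℂ}
    (hz : 0 < z.im) : J n D₂ u v z = c * J n D₁ u v z := by
  rw [J_closed, J_closed, Finset.mul_sum]
  refine Finset.sum_congr rfl fun m _ => ?_
  rw [CuspData.iter_fn_smul c H (m + 1) z hz]
  ring

end Fermat.Agent.S22.H11

end
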